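import Mathlib

/-!
# S55 / local index formula, part 1: an adic fixed point lemma and `n`-th powers near `1`

`O` is a commutative ring which is `I`-adically complete.

* `exists_fixedPt`, `fixedPt_unique`: if `q : O → O` is "`I`-contracting on `I`"
  (`q x - q y ∈ (x - y) * I` for `x y ∈ I`) and `q 0 = 0`, then for every `c ∈ I` the equation
  `z + q z = c` has a unique solution `z ∈ I`.
* `exists_pow_eq`, `pow_inj`: if `ν = (n : O)` is a non-zero-divisor, then
  `z ↦ (1 + ν z) ^ n` is a bijection from `I` onto `1 + ν² I`.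
-/

set_option autoImplicit false

namespace Fermat.Agent.S55.H603

open Finset

variable {O : Type*} [CommRing O]

section FixedPoint

variable (I : Ideal O)

/-- The iteration `z ↦ c - q z` starting at `0`. -/
def fpSeq (q : O → O) (c : O) : ℕ → O
  | 0 => 0
  | (i + 1) => c - q (fpSeq q c i)

variable {I}

lemma q_mem {q : O → O} (hq0 : q 0 = 0)
    (hq : ∀ x ∈ I, ∀ y ∈ I, ∃ w ∈ I, q x - q y = (x - y) * w) {x : O} (hx : x ∈ I) :
    q x ∈ I := by
  obtain ⟨w, hw, h⟩ := hq x hx 0 I.zero_mem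
  rw [hq0, sub_zero, sub_zero] at h
  rw [h]
  exact I.mul_mem_left _ hw

lemma fpSeq_mem {q : O → O} (hq0 : q 0 = 0)
    (hq : ∀ x ∈ I, ∀ y ∈ I, ∃ w ∈ I, q x - q y = (x - y) * w) {c : O} (hc : c ∈ I) (i : ℕ) :
    fpSeq q c i ∈ I := by
  induction i with
  | zero => exact I.zero_mem
  | succ i ih => exact I.sub_mem hc (q_mem hq0 hq ih)

lemma fpSeq_succ_sub {q : O → O} (hq0 : q 0 = 0)
    (hq : ∀ x ∈ I, ∀ y ∈ I, ∃ w ∈ I, q x - q y = (x - y) * w) {c : O} (hc : c ∈ I) (i : ℕ) :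
    fpSeq q c (i + 1) - fpSeq q c i ∈ I ^ (i + 1) := by
  induction i with
  | zero =>
    simp only [fpSeq, hq0, sub_zero, zero_add, pow_one]
    exact hc
  | succ i ih =>
    obtain ⟨w, hw, h⟩ := hq _ (fpSeq_mem hq0 hq hc (i + 1)) _ (fpSeq_mem hq0 hq hc i)
    have e : fpSeq q c (i + 1 + 1) - fpSeq q c (i + 1)
        = -((fpSeq q c (i + 1) - fpSeq q c i) * w) := by
      rw [← h]
      simp only [fpSeq]
      ring
    rw [e, pow_succ]
    exact (I ^ (i + 1) * I).neg_mem (Ideal.mul_mem_mul ih hw)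

lemma fpSeq_sub_mem {q : O → O} (hq0 : q 0 = 0)
    (hq : ∀ x ∈ I, ∀ y ∈ I, ∃ w ∈ I, q x - q y = (x - y) * w) {c : O} (hc : c ∈ I)
    {m n : ℕ} (hmn : m ≤ n) : fpSeq q c n - fpSeq q c m ∈ I ^ m := by
  induction n, hmn using Nat.le_induction with
  | base => simp
  | succ n hmn ih =>
    have h1 := fpSeq_succ_sub hq0 hq hc n
    have h2 : fpSeq q c (n + 1) - fpSeq q c n ∈ I ^ m :=
      Ideal.pow_le_pow_right (by omega : m ≤ n + 1) h1
    have e : fpSeq q c (n + 1) - fpSeq q c m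
        = (fpSeq q c (n + 1) - fpSeq q c n) + (fpSeq q c n - fpSeq q c m) := by ring
    rw [e]
    exact (I ^ m).add_mem h2 ih

/-- Existence of the fixed point. -/
theorem exists_fixedPt [IsAdicComplete I O] {q : O → O} (hq0 : q 0 = 0)
    (hq : ∀ x ∈ I, ∀ y ∈ I, ∃ w ∈ I, q x - q y = (x - y) * w) {c : O} (hc : c ∈ I) :
    ∃ z ∈ I, z + q z = c := by
  have hcauchy : ∀ {m n : ℕ}, m ≤ n →
      fpSeq q c m ≡ fpSeq q c n [SMOD (I ^ m • ⊤ : Submodule O O)] := by
    intro m n hmn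
    rw [SModEq.sub_mem, smul_eq_mul, Ideal.mul_top]
    have := fpSeq_sub_mem hq0 hq hc hmn
    have e : fpSeq q c m - fpSeq q c n = -(fpSeq q c n - fpSeq q c m) := by ring
    rw [e]
    exact (I ^ m).neg_mem this
  obtain ⟨L, hL⟩ := IsPrecomplete.prec' (I := I) (M := O) (fpSeq q c) hcauchy
  have hL' : ∀ n, fpSeq q c n - L ∈ I ^ n := by
    intro n
    have := hL n
    rwa [SModEq.sub_mem, smul_eq_mul, Ideal.mul_top] at this
  have hLI : L ∈ I := by
    have h1 := hL' 1
    rw [pow_one] at h1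
    have e : L = fpSeq q c 1 - (fpSeq q c 1 - L) := by ring
    rw [e]
    exact I.sub_mem (fpSeq_mem hq0 hq hc 1) h1
  refine ⟨L, hLI, ?_⟩
  have hzero : L + q L - c = 0 := by
    apply IsHausdorff.haus' (I := I) (M := O)
    intro n
    rw [SModEq.sub_mem, smul_eq_mul, Ideal.mul_top, sub_zero]
    obtain ⟨w, hw, h⟩ := hq _ hLI _ (fpSeq_mem hq0 hq hc n)
    have e : L + q L - c
        = -(fpSeq q c (n + 1) - L) + (L - fpSeq q c n) * w := by
      rw [← h]
      simp only [fpSeq]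
      ring
    rw [e]
    refine (I ^ n).add_mem ((I ^ n).neg_mem ?_) ?_
    · exact Ideal.pow_le_pow_right (Nat.le_succ n) (hL' (n + 1))
    · refine Ideal.mul_mem_right _ _ ?_
      have e2 : L - fpSeq q c n = -(fpSeq q c n - L) := by ring
      rw [e2]
      exact (I ^ n).neg_mem (hL' n)
  exact sub_eq_zero.mp hzero

/-- Uniqueness of the fixed point. -/
theorem fixedPt_unique [IsAdicComplete I O] {q : O → O}
    (hq : ∀ x ∈ I, ∀ y ∈ I, ∃ w ∈ I, q x - q y = (x - y) * w) {z z' : O}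
    (hz : z ∈ I) (hz' : z' ∈ I) (h : z + q z = z' + q z') : z = z' := by
  obtain ⟨w, hw, hw'⟩ := hq z hz z' hz'
  have e : (z - z') * (1 + w) = 0 := by
    have : (z - z') * (1 + w) = (z + q z) - (z' + q z') := by
      rw [mul_add, mul_one, ← hw']
      ring
    rw [this, h, sub_self]
  have hu : IsUnit (1 + w) := by
    have hj : w ∈ (⊥ : Ideal O).jacobson := IsAdicComplete.le_jacobson_bot I hw
    have := (Ideal.mem_jacobson_bot.mp hj) 1
    simpa [add_comm] using this
  have := (hu.mul_left_eq_zero).mp e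
  exact sub_eq_zero.mp this

end FixedPoint

end Fermat.Agent.S55.H603
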