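import Fermat.Agent.S55.H603.LocalIndexUnits

/-!
# S55 / local index formula, part 5: `[Kˣ : (Kˣ)ⁿ] = n · |μ_n(K)| · |O / n O|`

`O` is a complete discrete valuation ring with finite residue field, `K` its fraction field and
`n` a natural number which is nonzero in `O`.
-/

set_option autoImplicit false

namespace Fermat.Agent.S55.H603

open IsLocalRing

section Group

variable {A U : Type*} [CommGroup A] [CommGroup U] (ι : U →* A) (ϖ : A)

/-- The map `(k, u) ↦ ϖ ^ k * ι u`. -/
noncomputable def splitHom : Multiplicative ℤ × U →* A :=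
  (zpowersHom A ϖ).coprod ι

lemma splitHom_apply (x : Multiplicative ℤ × U) :
    splitHom ι ϖ x = ϖ ^ (Multiplicative.toAdd x.1) * ι x.2 := by
  simp [splitHom, MonoidHom.coprod_apply, zpowersHom_apply]

variable {ι ϖ}

lemma splitHom_bijective (hι : Function.Injective ι)
    (h1 : ∀ x : A, ∃ k : ℤ, ∃ u : U, x = ϖ ^ k * ι u)
    (h2 : ∀ (k : ℤ) (u : U), ϖ ^ k = ι u → k = 0) : Function.Bijective (splitHom ι ϖ) := by
  constructor
  · rw [injective_iff_map_eq_one]
    rintro ⟨k, u⟩ h
    rw [splitHom_apply] at h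
    have hk : Multiplicative.toAdd k = 0 := by
      apply h2 _ u⁻¹
      rw [map_inv]
      exact eq_inv_of_mul_eq_one_left h
    rw [hk, zpow_zero, one_mul] at h
    have hu : u = 1 := hι (by rw [h, map_one])
    have hk' : k = 1 := by
      rw [← ofAdd_toAdd k, hk]
      rfl
    rw [hk', hu]
    rfl
  · intro x
    obtain ⟨k, u, rfl⟩ := h1 x
    exact ⟨(Multiplicative.ofAdd k, u), by rw [splitHom_apply]; rfl⟩

lemma range_pow_multiplicative_int (n : ℕ) :
    (powMonoidHom n : Multiplicative ℤ →* Multiplicative ℤ).range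
      = AddSubgroup.toSubgroup (AddSubgroup.zmultiples (n : ℤ)) := by
  ext x
  rw [MonoidHom.mem_range]
  constructor
  · rintro ⟨y, rfl⟩
    change Multiplicative.toAdd (powMonoidHom n y) ∈ AddSubgroup.zmultiples (n : ℤ)
    rw [AddSubgroup.mem_zmultiples_iff]
    refine ⟨Multiplicative.toAdd y, ?_⟩
    simp [powMonoidHom_apply, mul_comm]
  · intro hx
    change Multiplicative.toAdd x ∈ AddSubgroup.zmultiples (n : ℤ) at hx
    rw [AddSubgroup.mem_zmultiples_iff] at hx
    obtain ⟨k, hk⟩ := hx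
    refine ⟨Multiplicative.ofAdd k, ?_⟩
    rw [powMonoidHom_apply, ← ofAdd_nsmul, ← ofAdd_toAdd x, ← hk]
    congr 1
    simp [mul_comm]

lemma index_range_pow_multiplicative_int (n : ℕ) :
    (powMonoidHom n : Multiplicative ℤ →* Multiplicative ℤ).range.index = n := by
  rw [range_pow_multiplicative_int, AddSubgroup.index_toSubgroup, Int.index_zmultiples,
    Int.natAbs_natCast]

lemma range_pow_prod {G H : Type*} [CommGroup G] [CommGroup H] (n : ℕ) :
    (powMonoidHom n : G × H →* G × H).range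
      = (powMonoidHom n : G →* G).range.prod (powMonoidHom n : H →* H).range := by
  ext ⟨g, h⟩
  rw [Subgroup.mem_prod, MonoidHom.mem_range, MonoidHom.mem_range, MonoidHom.mem_range]
  constructor
  · rintro ⟨⟨a, b⟩, hab⟩
    rw [powMonoidHom_apply, Prod.pow_mk, Prod.mk.injEq] at hab
    exact ⟨⟨a, hab.1⟩, ⟨b, hab.2⟩⟩
  · rintro ⟨⟨a, ha⟩, ⟨b, hb⟩⟩
    refine ⟨(a, b), ?_⟩
    rw [powMonoidHom_apply] at ha hb ⊢
    rw [Prod.pow_mk, ha, hb]

/-- Index of `n`-th powers in a group of the form `ϖ^ℤ × U`. -/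
theorem index_pow_of_splitting (hι : Function.Injective ι)
    (h1 : ∀ x : A, ∃ k : ℤ, ∃ u : U, x = ϖ ^ k * ι u)
    (h2 : ∀ (k : ℤ) (u : U), ϖ ^ k = ι u → k = 0) (n : ℕ) :
    (powMonoidHom n : A →* A).range.index = n * (powMonoidHom n : U →* U).range.index := by
  let e : Multiplicative ℤ × U ≃* A := MulEquiv.ofBijective (splitHom ι ϖ)
    (splitHom_bijective hι h1 h2)
  have hmap : (powMonoidHom n : A →* A).range
      = ((powMonoidHom n : Multiplicative ℤ × U →* Multiplicative ℤ × U).range).map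
          (e : Multiplicative ℤ × U →* A) := by
    ext x
    rw [Subgroup.mem_map, MonoidHom.mem_range]
    constructor
    · rintro ⟨y, rfl⟩
      refine ⟨(e.symm y) ^ n, ⟨e.symm y, rfl⟩, ?_⟩
      rw [map_pow]
      simp
    · rintro ⟨z, ⟨w, rfl⟩, rfl⟩
      refine ⟨e w, ?_⟩
      rw [powMonoidHom_apply, powMonoidHom_apply, map_pow]
      rfl
  rw [hmap, Subgroup.index_map_equiv, range_pow_prod, Subgroup.index_prod,
    index_range_pow_multiplicative_int]

/-- The `n`-torsion of a group of the form `ϖ^ℤ × U` is the `n`-torsion of `U`. -/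
theorem card_ker_pow_of_splitting (hι : Function.Injective ι)
    (h1 : ∀ x : A, ∃ k : ℤ, ∃ u : U, x = ϖ ^ k * ι u)
    (h2 : ∀ (k : ℤ) (u : U), ϖ ^ k = ι u → k = 0) (n : ℕ) (hn : n ≠ 0) :
    Nat.card (powMonoidHom n : A →* A).ker = Nat.card (powMonoidHom n : U →* U).ker := by
  symm
  refine Nat.card_congr (Equiv.ofBijective
    (fun u : (powMonoidHom n : U →* U).ker =>
      (⟨ι u, by
        have := u.2
        rw [MonoidHom.mem_ker, powMonoidHom_apply] at this ⊢
        rw [← map_pow, this, map_one]⟩ : (powMonoidHom n : A →* A).ker)) ⟨?_, ?_⟩)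
  · intro u v h
    have := congrArg Subtype.val h
    exact Subtype.ext (hι this)
  · rintro ⟨x, hx⟩
    have hx' := hx
    rw [MonoidHom.mem_ker, powMonoidHom_apply] at hx'
    obtain ⟨k, u, hxu⟩ := h1 x
    rw [hxu] at hx'
    have hk : (n : ℤ) * k = 0 := by
      apply h2 _ (u⁻¹ ^ n)
      rw [mul_pow] at hx'
      rw [map_pow, map_inv, inv_pow, mul_comm, zpow_mul, zpow_natCast]
      exact eq_inv_of_mul_eq_one_left hx'
    have hk0 : k = 0 := by
      rcases mul_eq_zero.1 hk with h | h
      · exact absurd (by exact_mod_cast h) hn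
      · exact h
    rw [hk0, zpow_zero, one_mul] at hx' hxu
    have hu : u ^ n = 1 := hι (by rw [map_pow, hx', map_one])
    exact ⟨⟨u, by rw [MonoidHom.mem_ker, powMonoidHom_apply, hu]⟩, Subtype.ext hxu.symm⟩

end Group

section Field

variable {O : Type*} [CommRing O] [IsDomain O] [IsDiscreteValuationRing O]
variable (K : Type*) [Field K] [Algebra O K] [IsFractionRing O K]

/-- The inclusion `Oˣ → Kˣ`. -/
noncomputable def unitsIncl : Oˣ →* Kˣ := Units.map (algebraMap O K : O →* K)

omit [IsDomain O] [IsDiscreteValuationRing O] in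
lemma unitsIncl_injective : Function.Injective (unitsIncl (O := O) K) :=
  Units.map_injective (IsFractionRing.injective O K)

omit [IsDomain O] [IsDiscreteValuationRing O] [IsFractionRing O K] in
lemma unitsIncl_val (u : Oˣ) : ((unitsIncl K u : Kˣ) : K) = algebraMap O K u := rfl

variable {K}

/-- Every element of `Kˣ` is `π ^ k * u`. -/
lemma exists_zpow_mul_unit {π : O} (hπ : Irreducible π) (x : Kˣ) :
    ∃ k : ℤ, ∃ u : Oˣ,
      x = (Units.mk0 (algebraMap O K π)
        ((map_ne_zero_iff _ (IsFractionRing.injective O K)).2 hπ.ne_zero)) ^ k * unitsIncl K u := by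
  obtain ⟨a, b, hb, hab⟩ := IsFractionRing.div_surjective O (x : K)
  have hb0 : b ≠ 0 := nonZeroDivisors.ne_zero hb
  have ha0 : a ≠ 0 := by
    rintro rfl
    rw [map_zero, zero_div] at hab
    exact x.ne_zero hab.symm
  obtain ⟨i, u, rfl⟩ := IsDiscreteValuationRing.eq_unit_mul_pow_irreducible ha0 hπ
  obtain ⟨j, v, rfl⟩ := IsDiscreteValuationRing.eq_unit_mul_pow_irreducible hb0 hπ
  refine ⟨(i : ℤ) - j, u * v⁻¹, Units.ext ?_⟩
  have hπK : algebraMap O K π ≠ 0 :=
    (map_ne_zero_iff _ (IsFractionRing.injective O K)).2 hπ.ne_zero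
  have hvK : algebraMap O K (v : O) ≠ 0 :=
    (map_ne_zero_iff _ (IsFractionRing.injective O K)).2 v.ne_zero
  rw [← hab, Units.val_mul, Units.val_zpow_eq_zpow_val, Units.val_mk0, unitsIncl_val,
    zpow_sub₀ hπK, zpow_natCast, zpow_natCast, map_mul, map_mul, map_pow, map_pow,
    Units.val_mul, map_mul]
  have hvinv : algebraMap O K ((v⁻¹ : Oˣ) : O) = (algebraMap O K (v : O))⁻¹ := by
    apply eq_inv_of_mul_eq_one_left
    rw [← map_mul, Units.inv_mul, map_one]
  rw [hvinv]
  field_simp

omit [IsDomain O] [IsDiscreteValuationRing O] in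
/-- A power of the uniformizer is a unit only if the exponent is zero. -/
lemma zpow_eq_unit {π : O} (hπ : Irreducible π) (k : ℤ) (u : Oˣ)
    (h : (Units.mk0 (algebraMap O K π)
        ((map_ne_zero_iff _ (IsFractionRing.injective O K)).2 hπ.ne_zero)) ^ k = unitsIncl K u) :
    k = 0 := by
  have hinj := IsFractionRing.injective O K
  have hnat : ∀ (m : ℕ) (w : Oˣ), algebraMap O K π ^ m = algebraMap O K (w : O) → m = 0 := by
    intro m w hm
    by_contra hm0
    rw [← map_pow] at hm
    have h1 : π ^ m = w := hinj hm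
    have h2 : IsUnit (π ^ m) := h1 ▸ w.isUnit
    exact hπ.not_isUnit ((isUnit_pow_iff hm0).1 h2)
  have hval := congrArg (fun y : Kˣ => (y : K)) h
  simp only [Units.val_zpow_eq_zpow_val, Units.val_mk0, unitsIncl_val] at hval
  obtain ⟨m, rfl | rfl⟩ := Int.eq_nat_or_neg k
  · rw [zpow_natCast] at hval
    have := hnat m u hval
    simp [this]
  · rw [zpow_neg, zpow_natCast] at hval
    have hval' : algebraMap O K π ^ m = algebraMap O K ((u⁻¹ : Oˣ) : O) := by
      have hu : algebraMap O K ((u⁻¹ : Oˣ) : O) = (algebraMap O K (u : O))⁻¹ := by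
        apply eq_inv_of_mul_eq_one_left
        rw [← map_mul, Units.inv_mul, map_one]
      rw [hu, ← hval, inv_inv]
    have := hnat m u⁻¹ hval'
    simp [this]

variable (K) in
/-- The `n`-th roots of unity of `K` are those of `O`. -/
theorem card_rootsOfUnity_field (n : ℕ) (hn : n ≠ 0) :
    Nat.card (rootsOfUnity n K) = Nat.card (rootsOfUnity n O) := by
  obtain ⟨π, hπ⟩ := IsDiscreteValuationRing.exists_irreducible O
  rw [rootsOfUnity_eq_ker, rootsOfUnity_eq_ker]
  exact card_ker_pow_of_splitting (unitsIncl_injective K) (exists_zpow_mul_unit hπ)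
    (zpow_eq_unit hπ) n hn

variable [IsAdicComplete (maximalIdeal O) O] [Finite (ResidueField O)]

variable (K) in
/-- **Local index formula**: `[Kˣ : (Kˣ)ⁿ] = n · |μ_n(K)| · |O / n O|`. -/
theorem index_pow_field (n : ℕ) (hn : (n : O) ≠ 0) :
    (powMonoidHom n : Kˣ →* Kˣ).range.index
      = n * Nat.card (rootsOfUnity n K) * Nat.card (O ⧸ Ideal.span {(n : O)}) := by
  obtain ⟨π, hπ⟩ := IsDiscreteValuationRing.exists_irreducible O
  have hn0 : n ≠ 0 := by
    rintro rfl
    simp at hn
  rw [index_pow_of_splitting (unitsIncl_injective K) (exists_zpow_mul_unit hπ)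
    (zpow_eq_unit hπ) n, index_pow_units n hn, card_rootsOfUnity_field (O := O) K n hn0, mul_assoc]

variable (K) in
/-- **Local index formula**, cardinality form. -/
theorem card_field_quot_pow (n : ℕ) (hn : (n : O) ≠ 0) :
    Nat.card (Kˣ ⧸ (powMonoidHom n : Kˣ →* Kˣ).range)
      = n * Nat.card (rootsOfUnity n K) * Nat.card (O ⧸ Ideal.span {(n : O)}) := by
  rw [← Subgroup.index_eq_card, index_pow_field K n hn]

end Field

end Fermat.Agent.S55.H603
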