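import Mathlib

/-!
# S55 / local index formula, part 3: congruence subgroups of the unit group of a local ring

`unitsCong J = {u ∈ Oˣ | u ≡ 1 mod J}`.  For a local domain `O`, a nonzero non-unit `a` and
`b ∣ a`, the quotient `unitsCong (a) / unitsCong (a b)` is isomorphic to `O / (b)`; in particular
`(unitsCong (a b)).relIndex (unitsCong (a)) = Nat.card (O ⧸ (b))`.
-/

set_option autoImplicit false

namespace Fermat.Agent.S55.H603

open IsLocalRing

variable {O : Type*} [CommRing O]

/-- Units congruent to `1` modulo `J`. -/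
def unitsCong (J : Ideal O) : Subgroup Oˣ :=
  (Units.map ((Ideal.Quotient.mk J : O →+* O ⧸ J) : O →* O ⧸ J)).ker

lemma mem_unitsCong {J : Ideal O} {u : Oˣ} : u ∈ unitsCong J ↔ (u : O) - 1 ∈ J := by
  rw [unitsCong, MonoidHom.mem_ker, Units.ext_iff, Units.coe_map, Units.val_one]
  change (Ideal.Quotient.mk J) (u : O) = 1 ↔ _
  rw [← map_one (Ideal.Quotient.mk J), Ideal.Quotient.eq]

lemma unitsCong_mono {J J' : Ideal O} (h : J ≤ J') : unitsCong J ≤ unitsCong J' :=
  fun _ hu => mem_unitsCong.2 (h (mem_unitsCong.1 hu))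

/-- The index of `unitsCong J` is nonzero if `O ⧸ J` is finite. -/
lemma index_unitsCong_ne_zero (J : Ideal O) [Finite (O ⧸ J)] : (unitsCong J).index ≠ 0 := by
  rw [unitsCong, Subgroup.index_ker]
  exact Nat.card_pos.ne'

section Coord

variable [IsDomain O] {a : O}

/-- The coordinate `z` of `u = 1 + z a ∈ unitsCong (a)`. -/
noncomputable def congCoord (a : O) (u : unitsCong (Ideal.span {a})) : O :=
  Classical.choose (Ideal.mem_span_singleton'.1 (mem_unitsCong.1 u.2))

omit [IsDomain O] in
lemma congCoord_spec (a : O) (u : unitsCong (Ideal.span {a})) :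
    congCoord a u * a = ((u : Oˣ) : O) - 1 :=
  Classical.choose_spec (Ideal.mem_span_singleton'.1 (mem_unitsCong.1 u.2))

lemma congCoord_eq (ha : a ≠ 0) (u : unitsCong (Ideal.span {a})) {z : O}
    (hz : z * a = ((u : Oˣ) : O) - 1) : congCoord a u = z :=
  mul_right_cancel₀ ha ((congCoord_spec a u).trans hz.symm)

lemma congCoord_mul (ha : a ≠ 0) (u v : unitsCong (Ideal.span {a})) :
    congCoord a (u * v) = congCoord a u + congCoord a v + a * congCoord a u * congCoord a v := by
  apply congCoord_eq ha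
  have hu := congCoord_spec a u
  have hv := congCoord_spec a v
  have e : (((u * v : unitsCong (Ideal.span {a})) : Oˣ) : O)
      = ((u : Oˣ) : O) * ((v : Oˣ) : O) := by
    simp
  rw [e]
  have hu' : ((u : Oˣ) : O) = 1 + congCoord a u * a := by rw [hu]; ring
  have hv' : ((v : Oˣ) : O) = 1 + congCoord a v * a := by rw [hv]; ring
  rw [hu', hv']
  ring

/-- The homomorphism `u = 1 + z a ↦ z mod b`, for `b ∣ a`. -/
noncomputable def congHom (ha : a ≠ 0) {b : O} (hb : b ∣ a) :
    unitsCong (Ideal.span {a}) →* Multiplicative (O ⧸ Ideal.span {b}) :=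
  MonoidHom.mk' (fun u => Multiplicative.ofAdd (Ideal.Quotient.mk (Ideal.span {b}) (congCoord a u)))
    (by
      intro u v
      rw [← ofAdd_add, ← map_add]
      congr 1
      rw [Ideal.Quotient.eq, congCoord_mul ha, Ideal.mem_span_singleton]
      have : congCoord a u + congCoord a v + a * congCoord a u * congCoord a v
          - (congCoord a u + congCoord a v) = a * (congCoord a u * congCoord a v) := by ring
      rw [this]
      exact Dvd.dvd.mul_right hb _)

lemma congHom_apply (ha : a ≠ 0) {b : O} (hb : b ∣ a) (u : unitsCong (Ideal.span {a})) :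
    congHom ha hb u
      = Multiplicative.ofAdd (Ideal.Quotient.mk (Ideal.span {b}) (congCoord a u)) := rfl

lemma congHom_ker (ha : a ≠ 0) {b : O} (hb : b ∣ a) :
    (congHom ha hb).ker
      = (unitsCong (Ideal.span {a * b})).subgroupOf (unitsCong (Ideal.span {a})) := by
  ext u
  rw [MonoidHom.mem_ker, congHom_apply, Subgroup.mem_subgroupOf, mem_unitsCong,
    ← congCoord_spec a u]
  rw [show (1 : Multiplicative (O ⧸ Ideal.span {b})) = Multiplicative.ofAdd 0 from rfl,
    Multiplicative.ofAdd.apply_eq_iff_eq, Ideal.Quotient.eq_zero_iff_mem,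
    Ideal.mem_span_singleton, Ideal.mem_span_singleton]
  constructor
  · rintro ⟨c, hc⟩
    exact ⟨c, by rw [hc]; ring⟩
  · rintro ⟨c, hc⟩
    refine ⟨c, mul_right_cancel₀ ha ?_⟩
    rw [hc]
    ring

variable [IsLocalRing O]

lemma congHom_surjective (ha : a ≠ 0) (ha' : a ∈ maximalIdeal O) {b : O} (hb : b ∣ a) :
    Function.Surjective (congHom ha hb) := by
  intro y
  obtain ⟨z, hz⟩ := Ideal.Quotient.mk_surjective (Multiplicative.toAdd y)
  have hu : IsUnit (1 + z * a) := by
    have hmem : -(z * a) ∈ nonunits O := by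
      rw [← mem_maximalIdeal]
      exact (maximalIdeal O).neg_mem ((maximalIdeal O).mul_mem_left _ ha')
    have := isUnit_one_sub_self_of_mem_nonunits _ hmem
    simpa using this
  have hmem : hu.unit ∈ unitsCong (Ideal.span {a}) := by
    rw [mem_unitsCong, IsUnit.unit_spec, Ideal.mem_span_singleton]
    exact ⟨z, by ring⟩
  refine ⟨⟨hu.unit, hmem⟩, ?_⟩
  rw [congHom_apply]
  have : congCoord a ⟨hu.unit, hmem⟩ = z := by
    apply congCoord_eq ha
    simp
  rw [this, hz]
  rfl

/-- `[1 + (a) : 1 + (a b)] = |O / (b)|` for `b ∣ a`, `a` a nonzero non-unit. -/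
theorem relIndex_unitsCong (ha : a ≠ 0) (ha' : a ∈ maximalIdeal O) {b : O} (hb : b ∣ a) :
    (unitsCong (Ideal.span {a * b})).relIndex (unitsCong (Ideal.span {a}))
      = Nat.card (O ⧸ Ideal.span {b}) := by
  rw [Subgroup.relIndex, ← congHom_ker ha hb, Subgroup.index_ker,
    MonoidHom.range_eq_top.2 (congHom_surjective ha ha' hb), Subgroup.card_top]
  exact Nat.card_congr Multiplicative.toAdd

end Coord

end Fermat.Agent.S55.H603
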