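import Fermat.Agent.S55.H603.PowNearOne
import Fermat.Agent.S55.H603.UnitsCong

/-!
# S55 / local index formula, part 4: `[Oˣ : (Oˣ)ⁿ] = |μ_n(O)| · |O / n O|`

`O` is a complete discrete valuation ring with finite residue field and `n` is a natural number
which is nonzero in `O`.
-/

set_option autoImplicit false

namespace Fermat.Agent.S55.H603

open IsLocalRing

variable {O : Type*} [CommRing O] [IsDomain O] [IsDiscreteValuationRing O]

omit [IsDomain O] [IsDiscreteValuationRing O] in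
lemma rootsOfUnity_eq_ker (n : ℕ) : rootsOfUnity n O = (powMonoidHom n : Oˣ →* Oˣ).ker := by
  ext u
  rw [mem_rootsOfUnity, MonoidHom.mem_ker, powMonoidHom_apply]

/-- Quotients of a DVR with finite residue field by nonzero principal ideals are finite. -/
theorem finite_quotient_span [Finite (ResidueField O)] {a : O} (ha : a ≠ 0) :
    Finite (O ⧸ Ideal.span {a}) := by
  obtain ⟨π, hπ⟩ := IsDiscreteValuationRing.exists_irreducible O
  have hne : Ideal.span {a} ≠ ⊥ := by
    rw [Ne, Ideal.span_singleton_eq_bot]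
    exact ha
  obtain ⟨k, hk⟩ := IsDiscreteValuationRing.ideal_eq_span_pow_irreducible hne hπ
  rw [hk, ← Ideal.span_singleton_pow, ← hπ.maximalIdeal_eq]
  have : Finite (O ⧸ maximalIdeal O) := inferInstanceAs (Finite (ResidueField O))
  exact Ideal.finite_quotient_pow (IsNoetherian.noetherian _) k

section Complete

variable [IsAdicComplete (maximalIdeal O) O]

/-- The `n`-th power map sends `1 + (n π)` onto `1 + (n² π)`. -/
theorem map_pow_unitsCong (n' : ℕ) (hν : ((n' + 1 : ℕ) : O) ≠ 0) {π : O} (hπ : Irreducible π) :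
    (unitsCong (Ideal.span {((n' + 1 : ℕ) : O) * π})).map (powMonoidHom (n' + 1))
      = unitsCong (Ideal.span {((n' + 1 : ℕ) : O) * π * ((n' + 1 : ℕ) : O)}) := by
  have hνr : ((n' + 1 : ℕ) : O) ∈ nonZeroDivisors O := mem_nonZeroDivisors_of_ne_zero hν
  ext y
  constructor
  · rintro ⟨u, hu, rfl⟩
    rw [powMonoidHom_apply, mem_unitsCong, Units.val_pow_eq_pow_val]
    obtain ⟨z, hz⟩ := Ideal.mem_span_singleton'.1 (mem_unitsCong.1 hu)
    have hu' : (u : O) = 1 + ((n' + 1 : ℕ) : O) * (z * π) := by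
      have : (u : O) = 1 + ((u : O) - 1) := by ring
      rw [this, ← hz]
      ring
    rw [hu', one_add_mul_pow]
    have hmem : z * π + powQ n' (z * π) ∈ Ideal.span {π} := by
      refine Ideal.add_mem _ (Ideal.mul_mem_left _ _ (Ideal.mem_span_singleton_self π)) ?_
      rw [powQ]
      refine Ideal.mul_mem_right _ _ (Ideal.pow_mem_of_mem _ ?_ 2 (by norm_num))
      exact Ideal.mul_mem_left _ _ (Ideal.mem_span_singleton_self π)
    obtain ⟨w, hw⟩ := Ideal.mem_span_singleton'.1 hmem
    rw [Ideal.mem_span_singleton]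
    refine ⟨w, ?_⟩
    rw [← hw]
    ring
  · intro hy
    obtain ⟨c, hc⟩ := Ideal.mem_span_singleton'.1 (mem_unitsCong.1 hy)
    have hcm : c * π ∈ maximalIdeal O := by
      rw [hπ.maximalIdeal_eq]
      exact Ideal.mul_mem_left _ _ (Ideal.mem_span_singleton_self π)
    obtain ⟨z, hz, hpow⟩ := exists_pow_eq (maximalIdeal O) n' hcm
    have hunit : IsUnit (1 + ((n' + 1 : ℕ) : O) * z) := by
      have hmem : -(((n' + 1 : ℕ) : O) * z) ∈ nonunits O := by
        rw [← mem_maximalIdeal]
        exact (maximalIdeal O).neg_mem ((maximalIdeal O).mul_mem_left _ hz)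
      have := isUnit_one_sub_self_of_mem_nonunits _ hmem
      simpa using this
    refine ⟨hunit.unit, ?_, ?_⟩
    · rw [SetLike.mem_coe, mem_unitsCong, IsUnit.unit_spec]
      rw [hπ.maximalIdeal_eq] at hz
      obtain ⟨z', hz'⟩ := Ideal.mem_span_singleton'.1 hz
      rw [Ideal.mem_span_singleton]
      refine ⟨z', ?_⟩
      rw [← hz']
      ring
    · apply Units.ext
      rw [powMonoidHom_apply, Units.val_pow_eq_pow_val, IsUnit.unit_spec, hpow]
      have : (y : O) = 1 + ((y : O) - 1) := by ring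
      rw [this, ← hc]
      ring

/-- There are no nontrivial `n`-th roots of unity in `1 + (n π)`. -/
theorem unitsCong_inf_ker (n' : ℕ) (hν : ((n' + 1 : ℕ) : O) ≠ 0) {π : O} (hπ : Irreducible π) :
    unitsCong (Ideal.span {((n' + 1 : ℕ) : O) * π}) ⊓ (powMonoidHom (n' + 1) : Oˣ →* Oˣ).ker
      = ⊥ := by
  have hνr : ((n' + 1 : ℕ) : O) ∈ nonZeroDivisors O := mem_nonZeroDivisors_of_ne_zero hν
  rw [eq_bot_iff]
  intro u hu0
  obtain ⟨hu, hker⟩ := Subgroup.mem_inf.1 hu0
  rw [MonoidHom.mem_ker, powMonoidHom_apply] at hker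
  rw [Subgroup.mem_bot]
  obtain ⟨z, hz⟩ := Ideal.mem_span_singleton'.1 (mem_unitsCong.1 hu)
  have hu' : (u : O) = 1 + ((n' + 1 : ℕ) : O) * (z * π) := by
    have : (u : O) = 1 + ((u : O) - 1) := by ring
    rw [this, ← hz]
    ring
  have hzm : z * π ∈ maximalIdeal O := by
    rw [hπ.maximalIdeal_eq]
    exact Ideal.mul_mem_left _ _ (Ideal.mem_span_singleton_self π)
  have h1 : (1 + ((n' + 1 : ℕ) : O) * (z * π)) ^ (n' + 1)
      = (1 + ((n' + 1 : ℕ) : O) * 0) ^ (n' + 1) := by
    rw [← hu', ← Units.val_pow_eq_pow_val, hker]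
    simp
  have h0 := pow_inj (maximalIdeal O) n' hνr hzm (maximalIdeal O).zero_mem h1
  apply Units.ext
  rw [hu', h0]
  simp

end Complete

/-- A purely group-theoretic index computation. -/
theorem index_range_of_map {G : Type*} [CommGroup G] (φ : G →* G) (V V' : Subgroup G)
    (hmap : V.map φ = V') (hle : V' ≤ V) (hker : V ⊓ φ.ker = ⊥) (hV : V.index ≠ 0) :
    φ.range.index = Nat.card φ.ker * V'.relIndex V := by
  have h1 : V'.index = (V ⊔ φ.ker).index * φ.range.index := by
    rw [← hmap, Subgroup.index_map]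
  have h2 : V'.relIndex V * V.index = V'.index := Subgroup.relIndex_mul_index hle
  have h3 : V.relIndex (V ⊔ φ.ker) * (V ⊔ φ.ker).index = V.index :=
    Subgroup.relIndex_mul_index le_sup_left
  have h4 : V.relIndex (V ⊔ φ.ker) = Nat.card φ.ker := by
    rw [Subgroup.relIndex_sup_left, ← Subgroup.inf_relIndex_right, hker,
      Subgroup.relIndex_bot_left]
  have h5 : (V ⊔ φ.ker).index ≠ 0 := by
    intro h
    rw [h, mul_zero] at h3
    exact hV h3.symm
  rw [h4] at h3
  have h6 : (V ⊔ φ.ker).index * φ.range.index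
      = (V ⊔ φ.ker).index * (Nat.card φ.ker * V'.relIndex V) := by
    rw [← h1, ← h2, ← h3]
    ring
  exact Nat.eq_of_mul_eq_mul_left (Nat.pos_of_ne_zero h5) h6

variable [IsAdicComplete (maximalIdeal O) O] [Finite (ResidueField O)]

/-- **Local index formula for units**: `[Oˣ : (Oˣ)ⁿ] = |μ_n(O)| · |O / n O|`. -/
theorem index_pow_units (n : ℕ) (hn : (n : O) ≠ 0) :
    (powMonoidHom n : Oˣ →* Oˣ).range.index
      = Nat.card (rootsOfUnity n O) * Nat.card (O ⧸ Ideal.span {(n : O)}) := by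
  obtain ⟨n', rfl⟩ : ∃ n', n = n' + 1 := by
    rcases n with _ | n'
    · simp at hn
    · exact ⟨n', rfl⟩
  obtain ⟨π, hπ⟩ := IsDiscreteValuationRing.exists_irreducible O
  have ha : ((n' + 1 : ℕ) : O) * π ≠ 0 := mul_ne_zero hn hπ.ne_zero
  have ham : ((n' + 1 : ℕ) : O) * π ∈ maximalIdeal O := by
    rw [hπ.maximalIdeal_eq]
    exact Ideal.mul_mem_left _ _ (Ideal.mem_span_singleton_self π)
  have hb : ((n' + 1 : ℕ) : O) ∣ ((n' + 1 : ℕ) : O) * π := Dvd.intro _ rfl
  have := finite_quotient_span ha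
  have hle : unitsCong (Ideal.span {((n' + 1 : ℕ) : O) * π * ((n' + 1 : ℕ) : O)})
      ≤ unitsCong (Ideal.span {((n' + 1 : ℕ) : O) * π}) := by
    apply unitsCong_mono
    rw [Ideal.span_singleton_le_span_singleton]
    exact Dvd.intro _ rfl
  rw [index_range_of_map (powMonoidHom (n' + 1) : Oˣ →* Oˣ) _ _ (map_pow_unitsCong n' hn hπ) hle
    (unitsCong_inf_ker n' hn hπ) (index_unitsCong_ne_zero _),
    relIndex_unitsCong ha ham hb, rootsOfUnity_eq_ker]

/-- **Local index formula for units**, cardinality form. -/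
theorem card_units_quot_pow (n : ℕ) (hn : (n : O) ≠ 0) :
    Nat.card (Oˣ ⧸ (powMonoidHom n : Oˣ →* Oˣ).range)
      = Nat.card (rootsOfUnity n O) * Nat.card (O ⧸ Ideal.span {(n : O)}) := by
  rw [← Subgroup.index_eq_card, index_pow_units n hn]

end Fermat.Agent.S55.H603
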