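import Fermat.Agent.S55.H603.AdicFixedPoint

/-!
# S55 / local index formula, part 2: `n`-th powers near `1` in an adically complete ring

For `ν = (n : O)`, `n ≥ 1`, we have the identity `(1 + ν z) ^ n = 1 + ν² (z + q z)` with
`q z = z² p(z)` a polynomial expression. Hence, if `O` is `I`-adically complete and `ν` is a
non-zero-divisor, `z ↦ (1 + ν z) ^ n` is a bijection `I → 1 + ν² I`.
-/

set_option autoImplicit false

namespace Fermat.Agent.S55.H603

open Finset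

variable {O : Type*} [CommRing O]

/-- The polynomial expression `p(z) = ∑_{k < n'} C(n'+1, k+2) ν^k z^k`, `ν = n' + 1`. -/
def powP (n' : ℕ) (z : O) : O :=
  ∑ k ∈ range n', ((n' + 1).choose (k + 2) : O) * ((n' + 1 : ℕ) : O) ^ k * z ^ k

/-- `q(z) = z² p(z)`. -/
def powQ (n' : ℕ) (z : O) : O := z ^ 2 * powP n' z

lemma powQ_zero (n' : ℕ) : powQ n' (0 : O) = 0 := by simp [powQ]

/-- The basic identity `(1 + ν z)^n = 1 + ν² (z + q z)`. -/
theorem one_add_mul_pow (n' : ℕ) (z : O) :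
    (1 + ((n' + 1 : ℕ) : O) * z) ^ (n' + 1)
      = 1 + ((n' + 1 : ℕ) : O) ^ 2 * (z + powQ n' z) := by
  rw [add_comm (1 : O), add_pow, sum_range_succ', sum_range_succ']
  simp only [one_pow, mul_one, pow_zero, Nat.choose_zero_right, Nat.cast_one, zero_add, pow_one,
    Nat.choose_one_right]
  rw [powQ, powP, mul_sum, mul_add, mul_sum]
  have : ∀ k ∈ range n',
      (((n' + 1 : ℕ) : O) * z) ^ (k + 1 + 1) * ((n' + 1).choose (k + 1 + 1) : O)
        = ((n' + 1 : ℕ) : O) ^ 2 *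
          (z ^ 2 * (((n' + 1).choose (k + 2) : O) * ((n' + 1 : ℕ) : O) ^ k * z ^ k)) := by
    intro k _
    ring
  rw [sum_congr rfl this]
  ring

lemma powP_sub_dvd (n' : ℕ) (x y : O) : x - y ∣ powP n' x - powP n' y := by
  rw [powP, powP, ← sum_sub_distrib]
  refine dvd_sum fun k _ => ?_
  have : ((n' + 1).choose (k + 2) : O) * ((n' + 1 : ℕ) : O) ^ k * x ^ k
      - ((n' + 1).choose (k + 2) : O) * ((n' + 1 : ℕ) : O) ^ k * y ^ k
      = ((n' + 1).choose (k + 2) : O) * ((n' + 1 : ℕ) : O) ^ k * (x ^ k - y ^ k) := by ring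
  rw [this]
  exact Dvd.dvd.mul_left (sub_dvd_pow_sub_pow x y k) _

lemma powQ_lip (I : Ideal O) (n' : ℕ) :
    ∀ x ∈ I, ∀ y ∈ I, ∃ w ∈ I, powQ n' x - powQ n' y = (x - y) * w := by
  intro x hx y hy
  obtain ⟨d, hd⟩ := powP_sub_dvd n' x y
  refine ⟨(x + y) * powP n' x + y ^ 2 * d, ?_, ?_⟩
  · refine I.add_mem (I.mul_mem_right _ (I.add_mem hx hy)) (I.mul_mem_right _ ?_)
    exact I.pow_mem_of_mem hy 2 (by norm_num)
  · have : powQ n' x - powQ n' y
        = (x - y) * ((x + y) * powP n' x) + y ^ 2 * (powP n' x - powP n' y) := by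
      simp only [powQ]
      ring
    rw [this, hd]
    ring

variable (I : Ideal O) [IsAdicComplete I O]

/-- Surjectivity of `z ↦ (1 + ν z)^n` from `I` onto `1 + ν² I`. -/
theorem exists_pow_eq (n' : ℕ) {c : O} (hc : c ∈ I) :
    ∃ z ∈ I, (1 + ((n' + 1 : ℕ) : O) * z) ^ (n' + 1) = 1 + ((n' + 1 : ℕ) : O) ^ 2 * c := by
  obtain ⟨z, hz, h⟩ := exists_fixedPt (I := I) (powQ_zero n') (powQ_lip I n') hc
  exact ⟨z, hz, by rw [one_add_mul_pow, h]⟩

/-- Injectivity of `z ↦ (1 + ν z)^n` on `I`, if `ν` is a non-zero-divisor. -/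
theorem pow_inj (n' : ℕ) (hν : ((n' + 1 : ℕ) : O) ∈ nonZeroDivisors O) {z z' : O}
    (hz : z ∈ I) (hz' : z' ∈ I)
    (h : (1 + ((n' + 1 : ℕ) : O) * z) ^ (n' + 1) = (1 + ((n' + 1 : ℕ) : O) * z') ^ (n' + 1)) :
    z = z' := by
  rw [one_add_mul_pow, one_add_mul_pow] at h
  have h2 : ((n' + 1 : ℕ) : O) ^ 2 * (z + powQ n' z) = ((n' + 1 : ℕ) : O) ^ 2 * (z' + powQ n' z') :=
    add_left_cancel h
  have hν2 : ((n' + 1 : ℕ) : O) ^ 2 ∈ nonZeroDivisors O := pow_mem hν 2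
  have h3 : z + powQ n' z = z' + powQ n' z' := by
    have := sub_eq_zero.mpr h2
    rw [← mul_sub] at this
    have := (mul_left_mem_nonZeroDivisors_eq_zero_iff hν2).mp this
    exact sub_eq_zero.mp this
  exact fixedPt_unique (I := I) (powQ_lip I n') hz hz' h3

/-- If `(1 + ν z)^n = 1 + ν² c` with `z ∈ I` and `ν` a non-zero-divisor, then `c ∈ I`
and `c - z ∈ z * I`. -/
theorem mem_of_pow_eq {J : Ideal O} (n' : ℕ) (hν : ((n' + 1 : ℕ) : O) ∈ nonZeroDivisors O)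
    {z c : O} (hz : z ∈ J)
    (h : (1 + ((n' + 1 : ℕ) : O) * z) ^ (n' + 1) = 1 + ((n' + 1 : ℕ) : O) ^ 2 * c) : c ∈ J := by
  rw [one_add_mul_pow] at h
  have h2 := add_left_cancel h
  have hν2 : ((n' + 1 : ℕ) : O) ^ 2 ∈ nonZeroDivisors O := pow_mem hν 2
  have h3 : z + powQ n' z = c := by
    have := sub_eq_zero.mpr h2
    rw [← mul_sub] at this
    have := (mul_left_mem_nonZeroDivisors_eq_zero_iff hν2).mp this
    exact sub_eq_zero.mp this
  rw [← h3]
  refine J.add_mem hz ?_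
  rw [powQ]
  exact J.mul_mem_right _ (J.pow_mem_of_mem hz 2 (by norm_num))

end Fermat.Agent.S55.H603
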